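import Fermat.Agent.AV.Cnt14.AffineLocal
import Fermat.Agent.AV.NormD43.Main

/-!
# CNT (CELL AV): the function field extension of a finite flat morphism

For a finite flat dominant morphism `f : X ⟶ Y` of integral schemes whose rank at the generic
point of a nonempty affine open is `d`, the function field extension `K(X) / K(Y)`
(`NormD43.functionFieldMap`) has degree `d`; it is separable when `f` is étale.
Specialisation: `NormD43.degree [N] = deg G N` on an integral abelian scheme.
-/

set_option autoImplicit false
set_option linter.style.haveILetI false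

namespace Fermat.Agent.AV.Cnt14

open CategoryTheory CategoryTheory.Limits AlgebraicGeometry NeronModelInfra GoodReductionJacobian
open Fermat.Agent.AV.NormD43

universe u

/-- Degree of the fraction field extension of a finite flat extension of domains: it is the
rank at the generic point. -/
theorem finrank_fractionField_eq_of_rankAtStalk {B B' F F' : Type*} [CommRing B] [IsDomain B]
    [CommRing B'] [IsDomain B'] [Algebra B B'] [FaithfulSMul B B'] [Module.Finite B B']
    [Module.Flat B B']
    [Field F] [Field F'] [Algebra B F] [IsFractionRing B F] [Algebra B' F'] [IsFractionRing B' F']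
    [Algebra F F'] [Algebra B F'] [IsScalarTower B F F'] [IsScalarTower B B' F']
    (d : ℕ) (hd : Module.rankAtStalk (R := B) B' ⊥ = d) :
    Module.finrank F F' = d := by
  have hbc : IsBaseChange F (IsScalarTower.toAlgHom B B' F').toLinearMap :=
    Algebra.IsAlgebraic.isBaseChange_of_isFractionRing B B' F F'
  have h1 := Module.rankAtStalk_isBaseChange hbc (⊥ : PrimeSpectrum F)
  rw [Module.rankAtStalk_eq_finrank_of_free] at h1
  have h2 : (⊥ : PrimeSpectrum F).comap (algebraMap B F) = ⊥ := by
    apply PrimeSpectrum.ext
    simp only [PrimeSpectrum.comap_asIdeal, PrimeSpectrum.asIdeal_bot]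
    rw [← RingHom.ker_eq_comap_bot]
    exact (RingHom.injective_iff_ker_eq_bot _).mp (IsFractionRing.injective B F)
  rw [h2] at h1
  simpa [hd] using h1

/-- In the same situation the fraction field extension is finite. -/
theorem finite_fractionField {B B' F F' : Type*} [CommRing B] [IsDomain B]
    [CommRing B'] [IsDomain B'] [Algebra B B'] [FaithfulSMul B B'] [Module.Finite B B']
    [Field F] [Field F'] [Algebra B F] [IsFractionRing B F] [Algebra B' F'] [IsFractionRing B' F']
    [Algebra F F'] [Algebra B F'] [IsScalarTower B F F'] [IsScalarTower B B' F'] :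
    Module.Finite F F' := by
  have hbc : IsBaseChange F (IsScalarTower.toAlgHom B B' F').toLinearMap :=
    Algebra.IsAlgebraic.isBaseChange_of_isFractionRing B B' F F'
  exact Module.Finite.equiv hbc.equiv

/-- If moreover `B → B'` is étale the fraction field extension is separable. -/
theorem isSeparable_fractionField {B B' F F' : Type u} [CommRing B] [IsDomain B]
    [CommRing B'] [IsDomain B'] [Algebra B B'] [FaithfulSMul B B'] [Module.Finite B B']
    [Algebra.Etale B B']
    [Field F] [Field F'] [Algebra B F] [IsFractionRing B F] [Algebra B' F'] [IsFractionRing B' F']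
    [Algebra F F'] [Algebra B F'] [IsScalarTower B F F'] [IsScalarTower B B' F'] :
    Algebra.IsSeparable F F' := by
  have hfin : Module.Finite F F' := finite_fractionField (B := B) (B' := B')
  have hpo : Algebra.IsPushout B F B' F' := inferInstance
  have e : TensorProduct B F B' ≃ₐ[F] F' := hpo.equiv
  have h1 : Algebra.FormallyEtale F (TensorProduct B F B') := inferInstance
  have h2 : Algebra.FormallyEtale F F' := Algebra.FormallyEtale.of_equiv e
  exact (Algebra.FormallyEtale.iff_isSeparable F F').mp h2

section SchemeLevel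

variable {X Y : Scheme.{u}} (f : X ⟶ Y)

/-- `K(X)` regarded as an extension of `K(Y)` via a dominant morphism `f : X ⟶ Y` of integral
schemes (a type synonym, so that `X = Y` causes no instance clash). -/
def FunctionFieldOver [IsIntegral X] [IsIntegral Y] [IsDominant f] : Type u := X.functionField

noncomputable instance [IsIntegral X] [IsIntegral Y] [IsDominant f] :
    Field (FunctionFieldOver f) :=
  inferInstanceAs (Field X.functionField)

noncomputable instance [IsIntegral X] [IsIntegral Y] [IsDominant f] :
    Algebra Y.functionField (FunctionFieldOver f) :=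
  (functionFieldMap f).hom.toAlgebra

theorem finrank_functionFieldOver [IsIntegral X] [IsIntegral Y] [IsDominant f] :
    Module.finrank Y.functionField (FunctionFieldOver f) = degree f := rfl

/-- Package of instances for the function field extension over an affine chart. -/
theorem functionField_ext_of_finite_flat [IsIntegral X] [IsIntegral Y] [IsFinite f] [Flat f]
    [IsDominant f] (V : Y.Opens) (hV : IsAffineOpen V) (hne : (V : Set Y).Nonempty) (d : ℕ)
    (hd : ∀ p, (f.appLE V (f ⁻¹ᵁ V) le_rfl).hom.finrank p = d) :
    Module.finrank Y.functionField (FunctionFieldOver f) = d ∧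
      Module.Finite Y.functionField (FunctionFieldOver f) := by
  have hne' : ((f ⁻¹ᵁ V : X.Opens) : Set X).Nonempty := ⟨_, genericPoint_mem_preimage f V hne⟩
  haveI : Nonempty V := hne.to_subtype
  haveI : Nonempty (f ⁻¹ᵁ V : X.Opens) := hne'.to_subtype
  have hV' : IsAffineOpen (f ⁻¹ᵁ V) := hV.preimage f
  letI : Algebra Y.functionField X.functionField := (functionFieldMap f).hom.toAlgebra
  letI : Algebra Γ(Y, V) Γ(X, f ⁻¹ᵁ V) := (f.app V).hom.toAlgebra
  letI : Algebra Γ(Y, V) X.functionField :=
    ((ggerm X (f ⁻¹ᵁ V) hne').hom.comp (f.app V).hom).toAlgebra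
  haveI : IsFractionRing Γ(Y, V) Y.functionField :=
    functionField_isFractionRing_of_isAffineOpen Y V hV
  haveI : IsFractionRing Γ(X, f ⁻¹ᵁ V) X.functionField :=
    functionField_isFractionRing_of_isAffineOpen X (f ⁻¹ᵁ V) hV'
  haveI : IsScalarTower Γ(Y, V) Γ(X, f ⁻¹ᵁ V) X.functionField :=
    IsScalarTower.of_algebraMap_eq fun x => rfl
  haveI : IsScalarTower Γ(Y, V) Y.functionField X.functionField :=
    IsScalarTower.of_algebraMap_eq fun x => (functionFieldMap_germ f V hne x).symm
  have happ : f.app V = f.appLE V (f ⁻¹ᵁ V) le_rfl := Scheme.Hom.app_eq_appLE f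
  haveI : Module.Finite Γ(Y, V) Γ(X, f ⁻¹ᵁ V) := f.finite_app V hV
  haveI : Module.Flat Γ(Y, V) Γ(X, f ⁻¹ᵁ V) := by
    have h := f.flat_appLE hV hV' le_rfl
    rw [← happ] at h
    exact h
  haveI : FaithfulSMul Γ(Y, V) Γ(X, f ⁻¹ᵁ V) := by
    rw [faithfulSMul_iff_algebraMap_injective]
    intro a b hab
    apply ggerm_injective Y V hne
    apply (functionFieldMap f).hom.injective
    rw [functionFieldMap_germ f V hne, functionFieldMap_germ f V hne]
    exact congrArg _ hab
  have hrk : Module.rankAtStalk (R := Γ(Y, V)) Γ(X, f ⁻¹ᵁ V) ⊥ = d := by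
    have h := hd ⊥
    rw [← happ] at h
    exact h
  have key1 : Module.finrank Y.functionField X.functionField = d :=
    finrank_fractionField_eq_of_rankAtStalk (B := Γ(Y, V)) (B' := Γ(X, f ⁻¹ᵁ V))
      (F := Y.functionField) (F' := X.functionField) d hrk
  have key2 : Module.Finite Y.functionField X.functionField :=
    finite_fractionField (B := Γ(Y, V)) (B' := Γ(X, f ⁻¹ᵁ V))
      (F := Y.functionField) (F' := X.functionField)
  exact ⟨key1, key2⟩

/-- The function field extension of a finite étale dominant morphism is separable. -/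
theorem isSeparable_functionField_of_etale [IsIntegral X] [IsIntegral Y] [IsFinite f] [Etale f]
    [IsDominant f] (V : Y.Opens) (hV : IsAffineOpen V) (hne : (V : Set Y).Nonempty) :
    Algebra.IsSeparable Y.functionField (FunctionFieldOver f) := by
  have hne' : ((f ⁻¹ᵁ V : X.Opens) : Set X).Nonempty := ⟨_, genericPoint_mem_preimage f V hne⟩
  haveI : Nonempty V := hne.to_subtype
  haveI : Nonempty (f ⁻¹ᵁ V : X.Opens) := hne'.to_subtype
  have hV' : IsAffineOpen (f ⁻¹ᵁ V) := hV.preimage f
  letI : Algebra Y.functionField X.functionField := (functionFieldMap f).hom.toAlgebra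
  letI : Algebra Γ(Y, V) Γ(X, f ⁻¹ᵁ V) := (f.app V).hom.toAlgebra
  letI : Algebra Γ(Y, V) X.functionField :=
    ((ggerm X (f ⁻¹ᵁ V) hne').hom.comp (f.app V).hom).toAlgebra
  haveI : IsFractionRing Γ(Y, V) Y.functionField :=
    functionField_isFractionRing_of_isAffineOpen Y V hV
  haveI : IsFractionRing Γ(X, f ⁻¹ᵁ V) X.functionField :=
    functionField_isFractionRing_of_isAffineOpen X (f ⁻¹ᵁ V) hV'
  haveI : IsScalarTower Γ(Y, V) Γ(X, f ⁻¹ᵁ V) X.functionField :=
    IsScalarTower.of_algebraMap_eq fun x => rfl
  haveI : IsScalarTower Γ(Y, V) Y.functionField X.functionField :=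
    IsScalarTower.of_algebraMap_eq fun x => (functionFieldMap_germ f V hne x).symm
  have happ : f.app V = f.appLE V (f ⁻¹ᵁ V) le_rfl := Scheme.Hom.app_eq_appLE f
  haveI : Module.Finite Γ(Y, V) Γ(X, f ⁻¹ᵁ V) := f.finite_app V hV
  haveI : Algebra.Etale Γ(Y, V) Γ(X, f ⁻¹ᵁ V) := by
    have h := f.etale_appLE hV hV' le_rfl
    rw [← happ] at h
    exact h
  haveI : FaithfulSMul Γ(Y, V) Γ(X, f ⁻¹ᵁ V) := by
    rw [faithfulSMul_iff_algebraMap_injective]
    intro a b hab
    apply ggerm_injective Y V hne
    apply (functionFieldMap f).hom.injective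
    rw [functionFieldMap_germ f V hne, functionFieldMap_germ f V hne]
    exact congrArg _ hab
  have key : Algebra.IsSeparable Y.functionField X.functionField :=
    isSeparable_fractionField (B := Γ(Y, V)) (B' := Γ(X, f ⁻¹ᵁ V))
      (F := Y.functionField) (F' := X.functionField)
  exact key

end SchemeLevel

section Nsmul

variable {K : Type u} [Field K] {A : Scheme.{u}} {f : A ⟶ Spec (CommRingCat.of K)}
variable (G : RelativeGroupLaw K f)

theorem isDominant_schemeNsmul (hA : AbelianSchemePropertyBundle K f) (N : ℕ)
    [Etale (G.schemeNsmul N)] : IsDominant (G.schemeNsmul N) := by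
  have := surjective_schemeNsmul G hA N
  infer_instance

theorem exists_nonempty_affineOpen (X : Scheme.{u}) [Nonempty X] :
    ∃ V : X.Opens, IsAffineOpen V ∧ (V : Set X).Nonempty := by
  obtain ⟨x⟩ := ‹Nonempty X›
  obtain ⟨_, ⟨V, hV, rfl⟩, hxV, -⟩ :=
    X.isBasis_affineOpens.exists_subset_of_mem_open (Set.mem_univ x) isOpen_univ
  exact ⟨V, hV, ⟨x, hxV⟩⟩

/-- **Degree of the function field extension of `[N]`** is `deg G N = #A(K)[N]`. -/
theorem degree_schemeNsmul [IsIntegral A] (hA : AbelianSchemePropertyBundle K f) (N : ℕ)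
    [Etale (G.schemeNsmul N)] :
    haveI := isDominant_schemeNsmul G hA N
    degree (G.schemeNsmul N) = deg G N := by
  haveI := isDominant_schemeNsmul G hA N
  haveI := isFinite_schemeNsmul G hA N
  obtain ⟨V, hV, hne⟩ := exists_nonempty_affineOpen A
  exact (functionField_ext_of_finite_flat (G.schemeNsmul N) V hV hne (deg G N)
    (fun p => nsmulApp_finrank G hA N hV p)).1

theorem finite_functionField_schemeNsmul [IsIntegral A] (hA : AbelianSchemePropertyBundle K f)
    (N : ℕ) [Etale (G.schemeNsmul N)] :
    haveI := isDominant_schemeNsmul G hA N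
    Module.Finite A.functionField (FunctionFieldOver (G.schemeNsmul N)) := by
  haveI := isDominant_schemeNsmul G hA N
  haveI := isFinite_schemeNsmul G hA N
  obtain ⟨V, hV, hne⟩ := exists_nonempty_affineOpen A
  exact (functionField_ext_of_finite_flat (G.schemeNsmul N) V hV hne (deg G N)
    (fun p => nsmulApp_finrank G hA N hV p)).2

theorem isSeparable_functionField_schemeNsmul [IsIntegral A]
    (hA : AbelianSchemePropertyBundle K f) (N : ℕ) [Etale (G.schemeNsmul N)] :
    haveI := isDominant_schemeNsmul G hA N
    Algebra.IsSeparable A.functionField (FunctionFieldOver (G.schemeNsmul N)) := by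
  haveI := isDominant_schemeNsmul G hA N
  haveI := isFinite_schemeNsmul G hA N
  obtain ⟨V, hV, hne⟩ := exists_nonempty_affineOpen A
  exact isSeparable_functionField_of_etale (G.schemeNsmul N) V hV hne

end Nsmul


end Fermat.Agent.AV.Cnt14
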