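import Fermat.Agent.AV.Cnt14.Degree

/-!
# CNT (CELL AV): affine-local structure of `[N]`

For every affine open `U ⊆ A`, the preimage `[N]⁻¹ U` is affine and
`Γ(A, U) ⟶ Γ(A, [N]⁻¹ U)` is finite, étale (hence flat), of constant rank `deg G N`.
-/

set_option autoImplicit false

namespace Fermat.Agent.AV.Cnt14

open CategoryTheory CategoryTheory.Limits AlgebraicGeometry NeronModelInfra GoodReductionJacobian

universe u

section General

variable {X Y : Scheme.{u}} (φ : X ⟶ Y)

theorem isAffineOpen_preimage_of_isFinite [IsFinite φ] {U : Y.Opens} (hU : IsAffineOpen U) :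
    IsAffineOpen (φ ⁻¹ᵁ U) :=
  hU.preimage φ

/-- The pullback square of affine charts. -/
theorem isPullback_fromSpec [IsFinite φ] {U : Y.Opens} (hU : IsAffineOpen U) :
    IsPullback (hU.preimage φ).fromSpec (Spec.map (φ.appLE U (φ ⁻¹ᵁ U) le_rfl)) φ hU.fromSpec := by
  refine (IsOpenImmersion.isPullback _ _ _ _
    (IsAffineOpen.SpecMap_appLE_fromSpec φ hU (hU.preimage φ) le_rfl).symm ?_).flip
  rw [IsAffineOpen.opensRange_fromSpec, IsAffineOpen.opensRange_fromSpec]

/-- The rank of `Γ(X, φ⁻¹U)` over `Γ(Y, U)` at a prime is the value of `finrank φ`. -/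
theorem ringHom_finrank_appLE_eq [IsFinite φ] [Flat φ] {U : Y.Opens} (hU : IsAffineOpen U)
    (p : PrimeSpectrum Γ(Y, U)) :
    (φ.appLE U (φ ⁻¹ᵁ U) le_rfl).hom.finrank p = Scheme.Hom.finrank φ (hU.fromSpec p) := by
  have hpb := isPullback_fromSpec φ hU
  have h1 := Scheme.Hom.finrank_of_isPullback _ _ _ _ hpb p
  rw [← h1]
  have hfin : (φ.appLE U (φ ⁻¹ᵁ U) le_rfl).hom.Finite := by
    rw [← IsFinite.SpecMap_iff]
    exact MorphismProperty.of_isPullback hpb ‹IsFinite φ›
  have hflat : (φ.appLE U (φ ⁻¹ᵁ U) le_rfl).hom.Flat := by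
    rw [← Flat.SpecMap_iff]
    exact MorphismProperty.of_isPullback hpb ‹Flat φ›
  rw [Scheme.Hom.finrank_SpecMap_eq_finrank hfin hflat]

theorem finite_appLE_preimage [IsFinite φ] {U : Y.Opens} (hU : IsAffineOpen U) :
    (φ.appLE U (φ ⁻¹ᵁ U) le_rfl).hom.Finite := by
  rw [← IsFinite.SpecMap_iff]
  exact MorphismProperty.of_isPullback (isPullback_fromSpec φ hU) ‹IsFinite φ›

theorem etale_appLE_preimage [IsFinite φ] [Etale φ] {U : Y.Opens} (hU : IsAffineOpen U) :
    (φ.appLE U (φ ⁻¹ᵁ U) le_rfl).hom.Etale :=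
  φ.etale_appLE hU (hU.preimage φ) le_rfl

end General

variable {K : Type u} [Field K] {A : Scheme.{u}} {f : A ⟶ Spec (CommRingCat.of K)}
variable (G : RelativeGroupLaw K f)

/-- `[N]⁻¹ U` is affine for `U` affine. -/
theorem isAffineOpen_preimage_schemeNsmul (hA : AbelianSchemePropertyBundle K f) (N : ℕ)
    [Etale (G.schemeNsmul N)] {U : A.Opens} (hU : IsAffineOpen U) :
    IsAffineOpen ((G.schemeNsmul N) ⁻¹ᵁ U) := by
  have := isFinite_schemeNsmul G hA N
  exact hU.preimage _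

/-- The coordinate ring map of `[N]` over an affine open `U`. -/
noncomputable abbrev nsmulApp (N : ℕ) (U : A.Opens) :
    Γ(A, U) ⟶ Γ(A, (G.schemeNsmul N) ⁻¹ᵁ U) :=
  (G.schemeNsmul N).appLE U ((G.schemeNsmul N) ⁻¹ᵁ U) le_rfl

theorem nsmulApp_finite (hA : AbelianSchemePropertyBundle K f) (N : ℕ)
    [Etale (G.schemeNsmul N)] {U : A.Opens} (hU : IsAffineOpen U) :
    (nsmulApp G N U).hom.Finite := by
  have := isFinite_schemeNsmul G hA N
  exact finite_appLE_preimage _ hU

theorem nsmulApp_etale (hA : AbelianSchemePropertyBundle K f) (N : ℕ)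
    [Etale (G.schemeNsmul N)] {U : A.Opens} (hU : IsAffineOpen U) :
    (nsmulApp G N U).hom.Etale := by
  have := isFinite_schemeNsmul G hA N
  exact etale_appLE_preimage _ hU

theorem nsmulApp_flat (hA : AbelianSchemePropertyBundle K f) (N : ℕ)
    [Etale (G.schemeNsmul N)] {U : A.Opens} (hU : IsAffineOpen U) :
    (nsmulApp G N U).hom.Flat := by
  have h := nsmulApp_etale G hA N hU
  algebraize [(nsmulApp G N U).hom]
  rw [RingHom.Flat]
  infer_instance

/-- The rank of `Γ(A, [N]⁻¹U)` over `Γ(A, U)` is `deg G N` at every prime. -/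
theorem nsmulApp_finrank (hA : AbelianSchemePropertyBundle K f) (N : ℕ)
    [Etale (G.schemeNsmul N)] {U : A.Opens} (hU : IsAffineOpen U) (p : PrimeSpectrum Γ(A, U)) :
    (nsmulApp G N U).hom.finrank p = deg G N := by
  have := isFinite_schemeNsmul G hA N
  rw [ringHom_finrank_appLE_eq (G.schemeNsmul N) hU p, finrank_schemeNsmul G hA N]

end Fermat.Agent.AV.Cnt14
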