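import Mathlib

/-!
# CNT (CELL AV): points of a finite étale scheme over an algebraically closed field

`Nat.card P = Scheme.Hom.finrank h x0` for `h : P ⟶ Spec K` finite étale, `K` algebraically
closed; every point of `P` is closed; étale morphisms are locally quasi-finite.
-/

set_option autoImplicit false

namespace Fermat.Agent.AV.Cnt14

open CategoryTheory CategoryTheory.Limits AlgebraicGeometry

universe u

theorem ringHom_quasiFinite_of_etale {R S : Type*} [CommRing R] [CommRing S] {φ : R →+* S}
    (h : φ.Etale) : φ.QuasiFinite := by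
  algebraize [φ]
  rw [RingHom.QuasiFinite]
  infer_instance

/-- Étale morphisms are locally quasi-finite. -/
theorem locallyQuasiFinite_of_etale {X Y : Scheme.{u}} (g : X ⟶ Y) [Etale g] :
    LocallyQuasiFinite g where
  quasiFinite_appLE hU _ hV e := ringHom_quasiFinite_of_etale (g.etale_appLE hU hV e)

/-- A proper étale morphism is finite. -/
theorem isFinite_of_isProper_of_etale {X Y : Scheme.{u}} (g : X ⟶ Y) [Etale g] [IsProper g] :
    IsFinite g := by
  have := locallyQuasiFinite_of_etale g
  exact IsFinite.of_isProper_of_locallyQuasiFinite g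

variable {K : Type u} [Field K] [IsAlgClosed K]

theorem card_primeSpectrum_eq_finrank (B : Type u) [CommRing B] [Algebra K B]
    [Algebra.Etale K B] :
    Nat.card (PrimeSpectrum B) = Module.finrank K B := by
  have e := Algebra.FormallyEtale.equivPiOfIsSepClosed K B
  have : Module.Finite K B := Algebra.FormallyUnramified.finite_of_free K B
  have : IsArtinianRing B := isArtinian_of_tower K inferInstance
  have : Finite (PrimeSpectrum B) := inferInstance
  have := Fintype.ofFinite (PrimeSpectrum B)
  rw [e.toLinearEquiv.finrank_eq, Module.finrank_fintype_fun_eq_card, Nat.card_eq_fintype_card]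

theorem natCard_Spec_eq_finrank (B : CommRingCat.{u}) (φ : CommRingCat.of K ⟶ B)
    [IsFinite (Spec.map φ)] [Etale (Spec.map φ)] (x0 : Spec (CommRingCat.of K)) :
    Nat.card (Spec B) = Scheme.Hom.finrank (Spec.map φ) x0 := by
  have h1 : φ.hom.Finite := (IsFinite.SpecMap_iff φ).mp inferInstance
  have h2 : φ.hom.Etale := (HasRingHomProperty.Spec_iff (P := @Etale)).mp inferInstance
  algebraize [φ.hom]
  have hφ : φ = CommRingCat.ofHom (algebraMap K B) := rfl
  have : Module.Flat K B := inferInstance
  rw [hφ, Scheme.Hom.finrank_SpecMap_algebraMap K B x0, Module.rankAtStalk_eq_finrank_of_free]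
  exact card_primeSpectrum_eq_finrank (K := K) B

omit [IsAlgClosed K] in
theorem exists_eq_isoSpec_hom_comp {P : Scheme.{u}} (h : P ⟶ Spec (CommRingCat.of K))
    [IsAffine P] :
    ∃ φ : CommRingCat.of K ⟶ Γ(P, ⊤), h = P.isoSpec.hom ≫ Spec.map φ := by
  refine ⟨(Scheme.ΓSpecIso _).inv ≫ h.appTop, ?_⟩
  have := Scheme.isoSpec_hom_naturality h
  rw [Spec.map_comp, ← Category.assoc, this]
  simp [Scheme.isoSpec_Spec_hom]

/-- The number of points of a finite étale scheme over an algebraically closed field is its
degree. -/
theorem natCard_eq_finrank_of_finite_etale {P : Scheme.{u}} (h : P ⟶ Spec (CommRingCat.of K))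
    [IsFinite h] [Etale h] (x0 : Spec (CommRingCat.of K)) :
    Nat.card P = Scheme.Hom.finrank h x0 := by
  have : IsAffine P := isAffine_of_isAffineHom h
  obtain ⟨φ, hφ⟩ := exists_eq_isoSpec_hom_comp h
  have hfin : IsFinite (Spec.map φ) := by
    have : Spec.map φ = P.isoSpec.inv ≫ h := by rw [hφ]; simp
    rw [this]; infer_instance
  have het : Etale (Spec.map φ) := by
    have : Spec.map φ = P.isoSpec.inv ≫ h := by rw [hφ]; simp
    rw [this]; infer_instance
  have hflat : Flat (Spec.map φ) := inferInstance
  have h3 : Scheme.Hom.finrank h = Scheme.Hom.finrank (Spec.map φ) := by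
    rw [hφ]; exact Scheme.Hom.finrank_comp_left_of_isIso _ _
  rw [h3, ← natCard_Spec_eq_finrank _ φ x0]
  exact Nat.card_congr P.isoSpec.hom.homeomorph.toEquiv

/-- A scheme finite over a field carries the discrete topology. -/
theorem discreteTopology_of_isFinite {k : Type u} [Field k] {P : Scheme.{u}}
    (h : P ⟶ Spec (CommRingCat.of k)) [IsFinite h] : DiscreteTopology P := by
  have : IsLocallyArtinian (Spec (CommRingCat.of k)) := by
    rw [Scheme.isLocallyArtinianScheme_Spec]
    exact inferInstanceAs (IsArtinianRing k)
  have : IsLocallyArtinian P := IsLocallyArtinian.of_locallyQuasiFinite h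
  infer_instance

/-- Every point of a scheme finite over a field is closed. -/
theorem isClosed_singleton_of_isFinite {k : Type u} [Field k] {P : Scheme.{u}}
    (h : P ⟶ Spec (CommRingCat.of k)) [IsFinite h] (p : P) : IsClosed ({p} : Set P) := by
  have := discreteTopology_of_isFinite h
  exact isClosed_discrete _

theorem closedPoints_eq_univ_of_isFinite {k : Type u} [Field k] {P : Scheme.{u}}
    (h : P ⟶ Spec (CommRingCat.of k)) [IsFinite h] : closedPoints P = Set.univ := by
  ext p
  simp only [Set.mem_univ, iff_true]
  exact isClosed_singleton_of_isFinite h p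

/-- Sections of a finite étale scheme over an algebraically closed field are counted by the
degree. -/
theorem natCard_sections_eq_finrank {P : Scheme.{u}} (h : P ⟶ Spec (CommRingCat.of K))
    [IsFinite h] [Etale h] (x0 : Spec (CommRingCat.of K)) :
    Nat.card {s : Spec (CommRingCat.of K) ⟶ P // s ≫ h = 𝟙 _} = Scheme.Hom.finrank h x0 := by
  rw [← natCard_eq_finrank_of_finite_etale h x0]
  refine Nat.card_congr ((pointEquivClosedPoint h).trans ?_)
  rw [closedPoints_eq_univ_of_isFinite h]
  exact Equiv.Set.univ _

end Fermat.Agent.AV.Cnt14
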