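import Fermat.Agent.AV.Cnt14.Basic
import Fermat.Agent.AV.Cnt14.FiniteEtalePoints

/-!
# CNT (CELL AV): `#A(K)[N] = deg [N]`

For `f : A ⟶ Spec K` with a relative group law `G`, `K` algebraically closed, and `[N]` finite
étale, the number of `N`-torsion `K`-points is `Scheme.Hom.finrank [N]` at the origin; more
generally every fibre of `[N]` over a `K`-point `y` has exactly `finrank [N] y` `K`-points.
-/

set_option autoImplicit false

namespace Fermat.Agent.AV.Cnt14

open CategoryTheory CategoryTheory.Limits AlgebraicGeometry NeronModelInfra GoodReductionJacobian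

universe u

variable {K : Type u} [Field K] {A : Scheme.{u}} {f : A ⟶ Spec (CommRingCat.of K)}
variable (G : RelativeGroupLaw K f)

/-- The type of `K`-points of `A`. -/
abbrev Pt (f : A ⟶ Spec (CommRingCat.of K)) : Type u :=
  SchemeHomOver (𝟙 (Spec (CommRingCat.of K))) f

/-- `K`-points `x` with `x ≫ φ = y` correspond to sections of the base change of `φ` along `y`. -/
noncomputable def fibreSectionsEquiv (φ : A ⟶ A) (hφ : φ ≫ f = f) (y : Pt f) :
    {x : Pt f // x.1 ≫ φ = y.1} ≃
      {s : Spec (CommRingCat.of K) ⟶ pullback φ y.1 // s ≫ pullback.snd φ y.1 = 𝟙 _} where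
  toFun x := ⟨pullback.lift x.1.1 (𝟙 _) (by rw [x.2, Category.id_comp]), pullback.lift_snd _ _ _⟩
  invFun s := ⟨⟨s.1 ≫ pullback.fst φ y.1, by
      have h1 : pullback.fst φ y.1 ≫ f = pullback.snd φ y.1 := by
        calc pullback.fst φ y.1 ≫ f = pullback.fst φ y.1 ≫ φ ≫ f := by rw [hφ]
          _ = (pullback.fst φ y.1 ≫ φ) ≫ f := (Category.assoc _ _ _).symm
          _ = (pullback.snd φ y.1 ≫ y.1) ≫ f := by rw [pullback.condition]
          _ = pullback.snd φ y.1 ≫ (y.1 ≫ f) := Category.assoc _ _ _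
          _ = pullback.snd φ y.1 := by rw [y.2, Category.comp_id]
      rw [Category.assoc, h1, s.2]⟩, by
      show (s.1 ≫ pullback.fst φ y.1) ≫ φ = y.1
      rw [Category.assoc, pullback.condition, ← Category.assoc, s.2, Category.id_comp]⟩
  left_inv x := by
    apply Subtype.ext; apply Subtype.ext
    exact pullback.lift_fst _ _ _
  right_inv s := by
    apply Subtype.ext
    apply pullback.hom_ext
    · exact pullback.lift_fst _ _ _
    · exact (pullback.lift_snd _ _ _).trans s.2.symm

variable [IsAlgClosed K]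

/-- Every fibre of a finite étale endomorphism `φ` over a `K`-point `y` has exactly
`finrank φ y` `K`-points. -/
theorem natCard_fibre_eq_finrank (φ : A ⟶ A) (hφ : φ ≫ f = f) [IsFinite φ] [Etale φ]
    (y : Pt f) (x0 : Spec (CommRingCat.of K)) :
    Nat.card {x : Pt f // x.1 ≫ φ = y.1} = Scheme.Hom.finrank φ (y.1 x0) := by
  rw [Nat.card_congr (fibreSectionsEquiv φ hφ y),
    natCard_sections_eq_finrank (pullback.snd φ y.1) x0, Scheme.Hom.finrank_pullback_snd]

/-- The `N`-torsion points are the fibre of `[N]` over the origin. -/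
def torsionEquivFibre (N : ℕ) :
    {x : Pt f // G.IsTorsionPoint (𝟙 _) N x} ≃
      {x : Pt f // x.1 ≫ G.schemeNsmul N = (G.one (𝟙 _)).1} :=
  Equiv.subtypeEquivRight fun x => by
    rw [RelativeGroupLaw.isTorsionPoint_def, nsmul_eq_comp, Subtype.ext_iff]

/-- **Count = degree.** -/
theorem natCard_torsion_eq_finrank (N : ℕ) [IsFinite (G.schemeNsmul N)] [Etale (G.schemeNsmul N)]
    (x0 : Spec (CommRingCat.of K)) :
    Nat.card {x : Pt f // G.IsTorsionPoint (𝟙 _) N x} =
      Scheme.Hom.finrank (G.schemeNsmul N) ((G.one (𝟙 _)).1 x0) := by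
  rw [Nat.card_congr (torsionEquivFibre G N)]
  exact natCard_fibre_eq_finrank (G.schemeNsmul N) (G.schemeNsmul_over N) (G.one (𝟙 _)) x0

end Fermat.Agent.AV.Cnt14
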