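import Fermat.Agent.AV.Cnt14.Count

/-!
# CNT (CELL AV): the degree of `[N]` on an abelian scheme over an algebraically closed field

Given `hA : AbelianSchemePropertyBundle K f` and étaleness of `[N]`:
`[N]` is finite, its rank function is constant `= deg G N`, every fibre over a `K`-point has
`deg G N ≥ 1` points; in particular `x ↦ N • x` is surjective on `K`-points and
`#A(K)[N] = deg G N`.
-/

set_option autoImplicit false

namespace Fermat.Agent.AV.Cnt14

open CategoryTheory CategoryTheory.Limits AlgebraicGeometry NeronModelInfra GoodReductionJacobian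

universe u

variable {K : Type u} [Field K] {A : Scheme.{u}} {f : A ⟶ Spec (CommRingCat.of K)}
variable (G : RelativeGroupLaw K f)

/-- The underlying space of an abelian scheme over a field is connected. -/
theorem connectedSpace_of_bundle (hA : AbelianSchemePropertyBundle K f) : ConnectedSpace A := by
  have x0 : Spec (CommRingCat.of K) := IsLocalRing.closedPoint K
  have h := hA.connectedFibres x0
  have huniv : f.base ⁻¹' {x0} = Set.univ := by
    ext q
    simp only [Set.mem_preimage, Set.mem_singleton_iff, Set.mem_univ, iff_true]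
    exact Subsingleton.elim _ _
  rw [huniv] at h
  exact connectedSpace_iff_univ.mpr h

theorem isFinite_schemeNsmul (hA : AbelianSchemePropertyBundle K f) (N : ℕ)
    [Etale (G.schemeNsmul N)] : IsFinite (G.schemeNsmul N) := by
  have := hA.proper
  have := isProper_schemeNsmul G N
  exact isFinite_of_isProper_of_etale _

/-- The rank function of `[N]` is constant. -/
theorem finrank_schemeNsmul_eq (hA : AbelianSchemePropertyBundle K f) (N : ℕ)
    [Etale (G.schemeNsmul N)] (y y' : A) :
    haveI := isFinite_schemeNsmul G hA N
    Scheme.Hom.finrank (G.schemeNsmul N) y = Scheme.Hom.finrank (G.schemeNsmul N) y' := by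
  have := isFinite_schemeNsmul G hA N
  have := connectedSpace_of_bundle hA
  exact (Scheme.Hom.isLocallyConstant_finrank (G.schemeNsmul N)).apply_eq_of_preconnectedSpace y y'

/-- The origin as a point of the underlying space. -/
noncomputable def origin : A := (G.one (𝟙 _)).1 (IsLocalRing.closedPoint K)

/-- The degree of `[N]`. -/
noncomputable def deg (N : ℕ) : ℕ := Scheme.Hom.finrank (G.schemeNsmul N) (origin G)

theorem finrank_schemeNsmul (hA : AbelianSchemePropertyBundle K f) (N : ℕ)
    [Etale (G.schemeNsmul N)] (y : A) :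
    Scheme.Hom.finrank (G.schemeNsmul N) y = deg G N :=
  finrank_schemeNsmul_eq G hA N y (origin G)

theorem one_le_deg (hA : AbelianSchemePropertyBundle K f) (N : ℕ) [Etale (G.schemeNsmul N)] :
    1 ≤ deg G N := by
  have := isFinite_schemeNsmul G hA N
  rw [← finrank_schemeNsmul G hA N (G.schemeNsmul N (origin G))]
  exact Scheme.Hom.one_le_finrank_map (G.schemeNsmul N) (origin G)

theorem surjective_schemeNsmul (hA : AbelianSchemePropertyBundle K f) (N : ℕ)
    [Etale (G.schemeNsmul N)] : Surjective (G.schemeNsmul N) := by
  have := isFinite_schemeNsmul G hA N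
  rw [← Scheme.Hom.one_le_finrank_iff_surjective]
  intro y
  rw [finrank_schemeNsmul G hA N y]
  exact one_le_deg G hA N

variable [IsAlgClosed K]

/-- Every fibre of `[N]` over a `K`-point has exactly `deg G N` `K`-points. -/
theorem natCard_fibre_schemeNsmul (hA : AbelianSchemePropertyBundle K f) (N : ℕ)
    [Etale (G.schemeNsmul N)] (y : Pt f) :
    Nat.card {x : Pt f // x.1 ≫ G.schemeNsmul N = y.1} = deg G N := by
  have := isFinite_schemeNsmul G hA N
  rw [natCard_fibre_eq_finrank (G.schemeNsmul N) (G.schemeNsmul_over N) y
    (IsLocalRing.closedPoint K), finrank_schemeNsmul G hA N]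

/-- **Count = degree**: `#A(K)[N] = deg [N]`. -/
theorem natCard_torsion_eq_deg (hA : AbelianSchemePropertyBundle K f) (N : ℕ)
    [Etale (G.schemeNsmul N)] :
    Nat.card {x : Pt f // G.IsTorsionPoint (𝟙 _) N x} = deg G N := by
  have := isFinite_schemeNsmul G hA N
  exact natCard_torsion_eq_finrank G N (IsLocalRing.closedPoint K)

/-- Divisibility: `x ↦ N • x` is surjective on `K`-points. -/
theorem exists_nsmul_eq (hA : AbelianSchemePropertyBundle K f) (N : ℕ)
    [Etale (G.schemeNsmul N)] (y : Pt f) : ∃ x : Pt f, G.nsmul (𝟙 _) N x = y := by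
  have h := natCard_fibre_schemeNsmul G hA N y
  have h1 := one_le_deg G hA N
  have hne : Nonempty {x : Pt f // x.1 ≫ G.schemeNsmul N = y.1} := by
    by_contra hempty
    rw [not_nonempty_iff] at hempty
    rw [Nat.card_of_isEmpty] at h
    omega
  obtain ⟨x, hx⟩ := hne
  exact ⟨x, by rw [nsmul_eq_comp]; exact Subtype.ext hx⟩

theorem finite_torsion (hA : AbelianSchemePropertyBundle K f) (N : ℕ)
    [Etale (G.schemeNsmul N)] : Finite {x : Pt f // G.IsTorsionPoint (𝟙 _) N x} := by
  have h := natCard_torsion_eq_deg G hA N
  have h1 := one_le_deg G hA N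
  exact Nat.finite_of_card_ne_zero (by omega)

end Fermat.Agent.AV.Cnt14
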