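import Fermat.Agent.AV.Cnt14.Degree

/-!
# CNT (CELL AV): `#A(K)[n^j] = (#A(K)[n])^j`

Pure group theory (divisibility by `n`) plus the dictionary between `G.nsmul` and powers in
`G.pointGroup`.
-/

set_option autoImplicit false

namespace Fermat.Agent.AV.Cnt14

open CategoryTheory CategoryTheory.Limits AlgebraicGeometry NeronModelInfra GoodReductionJacobian

universe u

section AbstractGroup

variable {Γ : Type*} [CommGroup Γ]

/-- If `x ↦ x ^ n` is surjective, the `n * m`-torsion is an extension of the `m`-torsion by the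
`n`-torsion. -/
theorem natCard_torsion_mul (n m : ℕ) (hsurj : Function.Surjective (fun x : Γ => x ^ n)) :
    Nat.card {x : Γ // x ^ (n * m) = 1} =
      Nat.card {x : Γ // x ^ n = 1} * Nat.card {x : Γ // x ^ m = 1} := by
  choose s hs using hsurj
  rw [← Nat.card_prod]
  refine (Nat.card_congr (Equiv.ofBijective
    (fun p : {x : Γ // x ^ n = 1} × {x : Γ // x ^ m = 1} =>
      (⟨p.1.1 * s p.2.1, by
        have h1 : (s p.2.1) ^ n = p.2.1 := hs p.2.1
        rw [mul_pow, pow_mul, pow_mul, p.1.2, one_pow, one_mul, h1, p.2.2]⟩ :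
        {x : Γ // x ^ (n * m) = 1})) ⟨?_, ?_⟩)).symm
  · rintro ⟨⟨a, ha⟩, ⟨t, ht⟩⟩ ⟨⟨a', ha'⟩, ⟨t', ht'⟩⟩ h
    have h0 : a * s t = a' * s t' := congrArg Subtype.val h
    have h1 : (s t) ^ n = t := hs t
    have h1' : (s t') ^ n = t' := hs t'
    have h2 : t = t' := by
      have := congrArg (fun z => z ^ n) h0
      simp only [mul_pow, ha, ha', one_mul, h1, h1'] at this
      exact this
    subst h2
    have h3 : a = a' := mul_right_cancel h0
    subst h3
    rfl
  · rintro ⟨x, hx⟩
    have hxn : (x ^ n) ^ m = 1 := by rw [← pow_mul]; exact hx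
    have h1 : (s (x ^ n)) ^ n = x ^ n := hs (x ^ n)
    refine ⟨⟨⟨x / s (x ^ n), by rw [div_pow, h1, div_self']⟩, ⟨x ^ n, hxn⟩⟩, ?_⟩
    apply Subtype.ext
    show x / s (x ^ n) * s (x ^ n) = x
    exact div_mul_cancel _ _

theorem natCard_torsion_pow (n j : ℕ) (hsurj : Function.Surjective (fun x : Γ => x ^ n)) :
    Nat.card {x : Γ // x ^ (n ^ j) = 1} = (Nat.card {x : Γ // x ^ n = 1}) ^ j := by
  induction j with
  | zero =>
    simp only [pow_zero, pow_one]
    exact Nat.card_unique
  | succ j ih =>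
    rw [pow_succ', natCard_torsion_mul n (n ^ j) hsurj, ih, pow_succ']

end AbstractGroup

variable {K : Type u} [Field K] {A : Scheme.{u}} {f : A ⟶ Spec (CommRingCat.of K)}
variable (G : RelativeGroupLaw K f)

/-- The commutative group of `K`-points. -/
@[reducible]
noncomputable def ptCommGroup (hc : G.IsCommutative) : CommGroup (Pt f) :=
  { G.pointGroup (𝟙 (Spec (CommRingCat.of K))) with
    mul_comm := fun x y => hc (𝟙 _) x y }

theorem nsmul_eq_pow (hc : G.IsCommutative) (N : ℕ) (x : Pt f) :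
    letI := ptCommGroup G hc
    G.nsmul (𝟙 _) N x = x ^ N := by
  let _ := ptCommGroup G hc
  induction N with
  | zero => rw [pow_zero]; rfl
  | succ N ih => rw [pow_succ, ← ih]; rfl

variable [IsAlgClosed K]

/-- `#A(K)[n^j] = (#A(K)[n])^j` as soon as `[n]` is étale. -/
theorem natCard_torsion_pow_eq (hc : G.IsCommutative) (hA : AbelianSchemePropertyBundle K f)
    (n j : ℕ) [Etale (G.schemeNsmul n)] :
    Nat.card {x : Pt f // G.IsTorsionPoint (𝟙 _) (n ^ j) x} =
      (Nat.card {x : Pt f // G.IsTorsionPoint (𝟙 _) n x}) ^ j := by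
  let _ := ptCommGroup G hc
  have hsurj : Function.Surjective (fun x : Pt f => x ^ n) := by
    intro y
    obtain ⟨x, hx⟩ := exists_nsmul_eq G hA n y
    exact ⟨x, by rw [← hx, nsmul_eq_pow G hc]⟩
  have key := natCard_torsion_pow (Γ := Pt f) n j hsurj
  have e : ∀ N : ℕ, {x : Pt f // G.IsTorsionPoint (𝟙 _) N x} ≃ {x : Pt f // x ^ N = 1} :=
    fun N => Equiv.subtypeEquivRight fun x => by
      rw [RelativeGroupLaw.isTorsionPoint_def, nsmul_eq_pow G hc]; rfl
  rw [Nat.card_congr (e (n ^ j)), Nat.card_congr (e n), key]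

/-- `deg [n^j] = (deg [n])^j`. -/
theorem deg_pow (hc : G.IsCommutative) (hA : AbelianSchemePropertyBundle K f)
    (n j : ℕ) [Etale (G.schemeNsmul n)] [Etale (G.schemeNsmul (n ^ j))] :
    deg G (n ^ j) = (deg G n) ^ j := by
  rw [← natCard_torsion_eq_deg G hA (n ^ j), ← natCard_torsion_eq_deg G hA n,
    natCard_torsion_pow_eq G hc hA n j]

end Fermat.Agent.AV.Cnt14
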