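import Fermat.Agent.AV.Cnt14.Basic
import Fermat.Agent.AV.Cnt14.FiniteEtalePoints
import Fermat.Agent.AV.Cnt14.Count
import Fermat.Agent.AV.Cnt14.Degree
import Fermat.Agent.AV.Cnt14.Torsion
import Fermat.Agent.AV.Cnt14.AffineLocal
import Fermat.Agent.AV.Cnt14.FunctionField

/-!
# CNT (CELL AV) -- summary of the brick

All statements take the single ETN input `[Etale (G.schemeNsmul N)]` as an instance argument.

* `nsmul_eq_comp`, `nsmul_coe` : `G.nsmul t N x = x ≫ [N]`.
* `isProper_schemeNsmul`, `isFinite_schemeNsmul`, `surjective_schemeNsmul`.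
* `deg G N`, `finrank_schemeNsmul : finrank [N] y = deg G N`, `one_le_deg`.
* `natCard_torsion_eq_deg : #A(K)[N] = deg G N`, `natCard_fibre_schemeNsmul`, `finite_torsion`.
* `exists_nsmul_eq` (divisibility), `natCard_torsion_pow_eq`, `deg_pow`.
* `isAffineOpen_preimage_schemeNsmul`, `nsmulApp_finite`, `nsmulApp_etale`, `nsmulApp_flat`,
  `nsmulApp_finrank`.
* `FunctionFieldOver f`, `functionField_ext_of_finite_flat`, `isSeparable_functionField_of_etale`,
  `degree_schemeNsmul : NormD43.degree [N] = deg G N`, `finite_functionField_schemeNsmul`,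
  `isSeparable_functionField_schemeNsmul` (need `[IsIntegral A]`, from VAR).
-/

namespace Fermat.Agent.AV.Cnt14

open CategoryTheory AlgebraicGeometry NeronModelInfra GoodReductionJacobian

universe u

/-- Reduction of S26 to the degree statement: if `[n]` is étale and `deg [n] = n ^ (2 * g)`,
the count of `n`-torsion `K`-points is `n ^ (2 * g)`. -/
theorem natCard_torsion_of_deg_eq {K : Type u} [Field K] [IsAlgClosed K] {A : Scheme.{u}}
    {f : A ⟶ Spec (CommRingCat.of K)} (G : RelativeGroupLaw K f)
    (hA : AbelianSchemePropertyBundle K f) (n g : ℕ) [Etale (G.schemeNsmul n)]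
    (hdeg : deg G n = n ^ (2 * g)) :
    Nat.card {x : SchemeHomOver (𝟙 (Spec (CommRingCat.of K))) f //
        G.IsTorsionPoint (𝟙 (Spec (CommRingCat.of K))) n x} = n ^ (2 * g) := by
  rw [← hdeg]
  exact natCard_torsion_eq_deg G hA n

end Fermat.Agent.AV.Cnt14
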