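import Mathlib
import Fermat.Prelude.Def_GoodReductionJacobian_RelativeGroupLawKernel
import Fermat.Prelude.Def_JacJ1Iface

/-!
# CNT (CELL AV): multiplication by `N` on an abelian scheme over a field -- basic dictionary

`G.nsmul t N x = x ≫ [N]`, `[N]` is proper, and (given étaleness) finite and flat.
-/

set_option autoImplicit false

namespace Fermat.Agent.AV.Cnt14

open CategoryTheory CategoryTheory.Limits AlgebraicGeometry NeronModelInfra GoodReductionJacobian

universe u

variable {K : Type u} [Field K] {A : Scheme.{u}} {f : A ⟶ Spec (CommRingCat.of K)}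
variable (G : RelativeGroupLaw K f)

/-- `N • x` is `x` followed by the scheme morphism `[N]`. -/
theorem nsmul_eq_comp {T : Scheme.{u}} (t : T ⟶ Spec (CommRingCat.of K)) (N : ℕ)
    (x : SchemeHomOver t f) :
    G.nsmul t N x = ⟨x.1 ≫ G.schemeNsmul N, by
      rw [Category.assoc, G.schemeNsmul_over, x.2]⟩ := by
  have h := G.nsmul_natural f t x.1 x.2 N RelativeGroupLaw.idPoint
  have hx : schemeHomOverComp x.1 x.2 (RelativeGroupLaw.idPoint (f := f)) = x :=
    Subtype.ext (by simp)
  rw [hx] at h
  rw [← h]
  rfl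

theorem nsmul_coe {T : Scheme.{u}} (t : T ⟶ Spec (CommRingCat.of K)) (N : ℕ)
    (x : SchemeHomOver t f) :
    (G.nsmul t N x).1 = x.1 ≫ G.schemeNsmul N := by
  rw [nsmul_eq_comp]

/-- `[N]` is proper as soon as the structure morphism is. -/
theorem isProper_schemeNsmul [IsProper f] (N : ℕ) : IsProper (G.schemeNsmul N) := by
  haveI : IsProper (G.schemeNsmul N ≫ f) := by rw [G.schemeNsmul_over]; infer_instance
  exact IsProper.of_comp (G.schemeNsmul N) f

end Fermat.Agent.AV.Cnt14
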